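/-
Programme MAZ (S15), Selmer core, local condition at `r` (helper42): the **constant group scheme**.

A finite abelian group with trivial Galois action has a finite flat model over `ℤ_(p)` (the Hopf order of
all `ℤ_(p)`-valued functions), in the `Flat44` vocabulary (`FunOrder`, `HasFlatModel`).
-/
import Fermat.Agent.Flat44.Main

set_option autoImplicit false

noncomputable section

namespace Fermat.Agent.MAZ.FlatCond42

open Fermat.Agent.Flat44

variable (p : ℕ) (M : Type) [AddCommGroup M]

/-- The algebra map from `ℤ_(p)`-valued to `ℚ̄`-valued functions. -/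
def constHom : (M → Zp p) →ₐ[Zp p] (M → Qb) := (Algebra.ofId (Zp p) Qb).compLeft M

omit [AddCommGroup M] in
theorem constHom_apply (f : M → Zp p) (x : M) : constHom p M f x = algebraMap (Zp p) Qb (f x) := rfl

omit [AddCommGroup M] in
theorem mem_range_constHom {b : M → Qb} :
    b ∈ (constHom p M).range ↔ ∃ f : M → Zp p, ∀ x, b x = algebraMap (Zp p) Qb (f x) := by
  constructor
  · rintro ⟨f, rfl⟩
    exact ⟨f, fun x => rfl⟩
  · rintro ⟨f, hf⟩
    exact ⟨f, funext fun x => (hf x).symm⟩

theorem galois_algebraMap (σ : GQ) (r : Zp p) : σ (algebraMap (Zp p) Qb r) = algebraMap (Zp p) Qb r := by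
  rw [IsScalarTower.algebraMap_apply (Zp p) ℚ Qb, AlgEquiv.commutes]

/-- The function order of the constant group scheme. -/
def constFunOrder [Finite M] (act : GQ → M → M) (hact : ∀ σ x, act σ x = x) : FunOrder p M act := by
  classical
  exact
  { B := (constHom p M).range
    fg := by
      have : Module.Finite (Zp p) (M → Zp p) := Module.Finite.pi
      exact Module.Finite.range (constHom p M).toLinearMap
    equivariant := by
      intro b hb σ x
      obtain ⟨f, hf⟩ := (mem_range_constHom p M).1 hb
      rw [hact, hf, galois_algebraMap]
    separates := by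
      intro x y h
      by_contra hxy
      have h1 := h (constHom p M (Pi.single x 1)) ⟨_, rfl⟩
      rw [constHom_apply, constHom_apply, Pi.single_eq_same, Pi.single_eq_of_ne (Ne.symm hxy),
        map_one, map_zero] at h1
      exact one_ne_zero h1
    comul_mem := by
      intro b hb
      obtain ⟨f, hf⟩ := (mem_range_constHom p M).1 hb
      let _ : Fintype M := Fintype.ofFinite M
      refine ⟨M, inferInstance, fun z => constHom p M (Pi.single z 1),
        fun z => constHom p M (fun y => f (z + y)), fun z => ⟨_, rfl⟩, fun z => ⟨_, rfl⟩,
        fun x y => ?_⟩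
      rw [Finset.sum_eq_single x]
      · show b (x + y) = constHom p M (Pi.single x 1) x * constHom p M (fun y => f (x + y)) y
        rw [hf, constHom_apply, constHom_apply, Pi.single_eq_same, map_one, one_mul]
      · intro z _ hz
        show constHom p M (Pi.single z 1) x * constHom p M (fun y => f (z + y)) y = 0
        rw [constHom_apply, Pi.single_eq_of_ne (Ne.symm hz), map_zero, zero_mul]
      · intro hx
        exact absurd (Finset.mem_univ x) hx
    neg_mem := by
      intro b hb
      obtain ⟨f, hf⟩ := (mem_range_constHom p M).1 hb
      exact (mem_range_constHom p M).2 ⟨fun x => f (-x), fun x => hf (-x)⟩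
    zero_mem := by
      intro b hb
      obtain ⟨f, hf⟩ := (mem_range_constHom p M).1 hb
      exact ⟨f 0, (hf 0).symm⟩ }

/-- A finite group with trivial Galois action has a finite flat model. -/
theorem hasFlatModel_const [Finite M] (act : GQ → M → M) (hact : ∀ σ x, act σ x = x) :
    HasFlatModel p M act :=
  (constFunOrder p M act hact).hasFlatModel

end Fermat.Agent.MAZ.FlatCond42
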