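/-
Programme MAZ (S15), Selmer core, local condition at `r` (helper42): **extension modules of cocycles.**

For a `G_ℚ`-module `V` killed by `N` and a cocycle `c : G_ℚ → V`, the extension module `E_c` is
`V × ℤ/N` with `σ (v, a) = (σ v + a • c σ, a)`; it sits in `0 → V → E_c → ℤ/N → 0` and its class is `[c]`.
"`[c]` is flat at `p`" := `E_c` has a finite flat model over `ℤ_(p)` (`Flat44.HasFlatModel`, the notion
of the Prelude's `GaloisRepAdic.IsFlatAt`).  This file: the action, and the closure properties of flat
classes (independence of the representative, zero, sum, negative, push-forward, pull-back along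
injections), all from `Flat44.HasFlatModel.{sub, prod, of_equiv, of_sub_surjective}` and the constant group.
-/
import Fermat.Agent.MAZ.FlatCond42.Const
import Fermat.Agent.Flat44.S19Target

set_option autoImplicit false

noncomputable section

namespace Fermat.Agent.MAZ.FlatCond42

open Fermat.Agent.Flat44

variable (p N : ℕ)

section Val

variable {N} [NeZero N] {V : Type} [AddCommGroup V]

/-- `(a + b).val • y = a.val • y + b.val • y` on `N`-torsion. -/
theorem val_add_nsmul {y : V} (hy : N • y = 0) (a b : ZMod N) :
    (a + b).val • y = a.val • y + b.val • y := by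
  rw [← add_nsmul, ZMod.val_add]
  conv_rhs => rw [← Nat.mod_add_div (a.val + b.val) N]
  rw [add_nsmul, mul_nsmul, hy, smul_zero, add_zero]

theorem val_neg_nsmul {y : V} (hy : N • y = 0) (a : ZMod N) :
    (-a).val • y = -(a.val • y) := by
  have h := val_add_nsmul hy a (-a)
  rw [add_neg_cancel, ZMod.val_zero, zero_nsmul] at h
  exact eq_neg_of_add_eq_zero_right h.symm

end Val

variable {V : Type} [AddCommGroup V] [DistribMulAction GQ V]

/-- The Galois action on `V`, as a plain function. -/
def modAct (V : Type) [AddCommGroup V] [DistribMulAction GQ V] : GQ → V → V := fun σ x => σ • x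

/-- The action of `G_ℚ` on the extension module `E_c = V × ℤ/N` of a cochain `c`. -/
def extAct (c : GQ → V) : GQ → V × ZMod N → V × ZMod N :=
  fun σ e => (σ • e.1 + e.2.val • c σ, e.2)

@[simp] theorem extAct_fst (c : GQ → V) (σ : GQ) (e : V × ZMod N) :
    (extAct N c σ e).1 = σ • e.1 + e.2.val • c σ := rfl

@[simp] theorem extAct_snd (c : GQ → V) (σ : GQ) (e : V × ZMod N) : (extAct N c σ e).2 = e.2 := rfl

/-- The class of `c` is flat at `p`. -/
def IsFlatCochain (c : GQ → V) : Prop := HasFlatModel p (V × ZMod N) (extAct N c)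

variable {p N}

/-- Transport along an injective equivariant map. -/
theorem hasFlatModel_of_injective {X M : Type} [AddCommGroup X] [AddCommGroup M] {actX : GQ → X → X}
    {act : GQ → M → M} (h : HasFlatModel p X actX) (g : M →+ X) (hg : Function.Injective g)
    (hgσ : ∀ σ m, g (act σ m) = actX σ (g m)) : HasFlatModel p M act := by
  have hA : ∀ σ, ∀ x ∈ g.range, actX σ x ∈ g.range := by
    rintro σ _ ⟨m, rfl⟩
    exact ⟨act σ m, hgσ σ m⟩
  have h1 := h.sub g.range (fun σ x => ⟨actX σ x, hA σ x x.2⟩) fun _ _ => rfl
  refine h1.of_equiv (AddMonoidHom.ofInjective hg).symm fun σ x => ?_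
  obtain ⟨_, m, rfl⟩ := x
  apply (AddMonoidHom.ofInjective hg).injective
  rw [AddEquiv.apply_symm_apply]
  apply Subtype.ext
  show actX σ (g m) = ((AddMonoidHom.ofInjective hg) (act σ ((AddMonoidHom.ofInjective hg).symm ⟨g m, m, rfl⟩)) : X)
  have h2 : (AddMonoidHom.ofInjective hg).symm ⟨g m, m, rfl⟩ = m := by
    apply (AddMonoidHom.ofInjective hg).injective
    rw [AddEquiv.apply_symm_apply]
    rfl
  rw [h2]
  exact (hgσ σ m).symm

/-- Transport along a surjective equivariant map. -/
theorem hasFlatModel_of_surjective {X M : Type} [AddCommGroup X] [AddCommGroup M] {actX : GQ → X → X}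
    {act : GQ → M → M} (h : HasFlatModel p X actX) (g : X →+ M) (hg : Function.Surjective g)
    (hgσ : ∀ σ x, g (actX σ x) = act σ (g x)) : HasFlatModel p M act := by
  refine h.of_sub_surjective ⊤ (fun _ _ _ => AddSubgroup.mem_top _) (g.comp (⊤ : AddSubgroup X).subtype)
    (fun m => ?_) (fun σ x => hgσ σ x.1)
  obtain ⟨x, rfl⟩ := hg m
  exact ⟨⟨x, AddSubgroup.mem_top x⟩, rfl⟩

section Closure

/-- Independence of the representative: changing `c` by the coboundary of `v`. -/
theorem IsFlatCochain.congr [NeZero N] (hN : ∀ y : V, N • y = 0) {c c' : GQ → V}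
    (h : IsFlatCochain p N c) (v : V)
    (hv : ∀ σ, c' σ = c σ + (σ • v - v)) : IsFlatCochain p N c' := by
  let φ : V × ZMod N ≃+ V × ZMod N :=
    { toFun := fun e => (e.1 - e.2.val • v, e.2)
      invFun := fun e => (e.1 + e.2.val • v, e.2)
      left_inv := fun e => by simp
      right_inv := fun e => by simp
      map_add' := fun e e' => by
        apply Prod.ext
        · simp only [Prod.fst_add, Prod.snd_add, val_add_nsmul (hN v)]; abel
        · rfl }
  refine HasFlatModel.of_equiv h φ fun σ e => ?_
  apply Prod.ext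
  · show σ • e.1 + e.2.val • c σ - e.2.val • v = σ • (e.1 - e.2.val • v) + e.2.val • c' σ
    rw [hv σ, smul_sub, smul_add, smul_sub, smul_comm σ e.2.val v]
    abel
  · rfl

/-- The zero class is flat when `V` is. -/
theorem isFlatCochain_zero [NeZero N] (hV : HasFlatModel p V (modAct V)) : IsFlatCochain p N (0 : GQ → V) := by
  refine hV.prod (hasFlatModel_const p (ZMod N) (fun _ a => a) fun _ _ => rfl) _ fun σ e => ?_
  apply Prod.ext
  · show σ • e.1 + e.2.val • (0 : V) = σ • e.1
    rw [smul_zero, add_zero]
  · rfl

/-- The sum of two flat classes is flat. -/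
theorem IsFlatCochain.add {c c' : GQ → V} (h : IsFlatCochain p N c) (h' : IsFlatCochain p N c') :
    IsFlatCochain p N (c + c') := by
  have hprod := h.prod h' (fun σ x => (extAct N c σ x.1, extAct N c' σ x.2)) fun _ _ => rfl
  let A : AddSubgroup ((V × ZMod N) × (V × ZMod N)) :=
    { carrier := {x | x.1.2 = x.2.2}
      zero_mem' := rfl
      add_mem' := fun {x y} hx hy => by
        show x.1.2 + y.1.2 = x.2.2 + y.2.2
        rw [hx, hy]
      neg_mem' := fun {x} hx => by
        show -x.1.2 = -x.2.2
        rw [hx] }
  have hA : ∀ σ, ∀ x ∈ A, (extAct N c σ x.1, extAct N c' σ x.2) ∈ A := fun σ x hx => hx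
  let g : A →+ V × ZMod N :=
    { toFun := fun x => (x.1.1.1 + x.1.2.1, x.1.1.2)
      map_zero' := by
        apply Prod.ext
        · show (0 : V) + 0 = 0
          rw [add_zero]
        · rfl
      map_add' := fun x y => by
        apply Prod.ext
        · show (x.1.1.1 + y.1.1.1) + (x.1.2.1 + y.1.2.1) = (x.1.1.1 + x.1.2.1) + (y.1.1.1 + y.1.2.1)
          abel
        · rfl }
  refine hprod.of_sub_surjective A hA g (fun e => ⟨⟨((e.1, e.2), (0, e.2)), rfl⟩, ?_⟩) fun σ x => ?_
  · apply Prod.ext
    · show e.1 + 0 = e.1
      rw [add_zero]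
    · rfl
  · have hx : x.1.1.2 = x.1.2.2 := x.2
    apply Prod.ext
    · show (σ • x.1.1.1 + x.1.1.2.val • c σ) + (σ • x.1.2.1 + x.1.2.2.val • c' σ)
        = σ • (x.1.1.1 + x.1.2.1) + x.1.1.2.val • (c σ + c' σ)
      rw [← hx, smul_add, smul_add]
      abel
    · rfl

/-- The negative of a flat class is flat. -/
theorem IsFlatCochain.neg {c : GQ → V} (h : IsFlatCochain p N c) : IsFlatCochain p N (-c) := by
  let φ : V × ZMod N ≃+ V × ZMod N :=
    { toFun := fun e => (-e.1, e.2)
      invFun := fun e => (-e.1, e.2)
      left_inv := fun e => by simp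
      right_inv := fun e => by simp
      map_add' := fun e e' => by
        apply Prod.ext
        · show -(e.1 + e'.1) = -e.1 + -e'.1
          abel
        · rfl }
  refine HasFlatModel.of_equiv h φ fun σ e => ?_
  apply Prod.ext
  · show -(σ • e.1 + e.2.val • c σ) = σ • (-e.1) + e.2.val • (-c σ)
    rw [smul_neg, smul_neg]
    abel
  · rfl

/-- Push-forward of a flat class along an equivariant map into a flat module is flat. -/
theorem IsFlatCochain.map {V' : Type} [AddCommGroup V'] [DistribMulAction GQ V'] {c : GQ → V}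
    (h : IsFlatCochain p N c) (hV' : HasFlatModel p V' (modAct V')) (f : V →+[GQ] V') :
    IsFlatCochain p N (fun σ => f (c σ)) := by
  have hprod := h.prod hV' (fun σ x => (extAct N c σ x.1, modAct V' σ x.2)) fun _ _ => rfl
  let g : (V × ZMod N) × V' →+ V' × ZMod N :=
    { toFun := fun x => (f x.1.1 + x.2, x.1.2)
      map_zero' := by
        apply Prod.ext
        · show f 0 + 0 = 0
          rw [map_zero, add_zero]
        · rfl
      map_add' := fun x y => by
        apply Prod.ext
        · show f (x.1.1 + y.1.1) + (x.2 + y.2) = (f x.1.1 + x.2) + (f y.1.1 + y.2)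
          rw [map_add]
          abel
        · rfl }
  refine hasFlatModel_of_surjective hprod g (fun e => ⟨((0, e.2), e.1), ?_⟩) fun σ x => ?_
  · apply Prod.ext
    · show f 0 + e.1 = e.1
      rw [map_zero, zero_add]
    · rfl
  · apply Prod.ext
    · show f (σ • x.1.1 + x.1.2.val • c σ) + σ • x.2 = σ • (f x.1.1 + x.2) + x.1.2.val • f (c σ)
      rw [map_add, map_smul, map_nsmul, smul_add]
      abel
    · rfl

/-- Pull-back: if the push-forward of `c` along an INJECTIVE equivariant map is flat, so is `c`. -/
theorem IsFlatCochain.of_map_injective {V' : Type} [AddCommGroup V'] [DistribMulAction GQ V']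
    {c : GQ → V} (f : V →+[GQ] V') (hf : Function.Injective f)
    (h : IsFlatCochain p N (fun σ => f (c σ))) : IsFlatCochain p N c := by
  let g : V × ZMod N →+ V' × ZMod N :=
    { toFun := fun e => (f e.1, e.2)
      map_zero' := by
        apply Prod.ext
        · exact map_zero f
        · rfl
      map_add' := fun e e' => by
        apply Prod.ext
        · exact map_add f e.1 e'.1
        · rfl }
  refine hasFlatModel_of_injective h g (fun e e' hee => ?_) fun σ e => ?_
  · have h1 : (g e).1 = (g e').1 := congrArg Prod.fst hee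
    have h2 : (g e).2 = (g e').2 := congrArg Prod.snd hee
    exact Prod.ext (hf h1) h2
  · apply Prod.ext
    · show f (σ • e.1 + e.2.val • c σ) = σ • f e.1 + e.2.val • f (c σ)
      rw [map_add, map_smul, map_nsmul]
    · rfl

end Closure

end Fermat.Agent.MAZ.FlatCond42
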