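/-
Programme MAZ (S15), Selmer core, local condition at `r` (helper42): **the flat Selmer system.**

`Γ = G_ℚ = Gal(ℚ̄/ℚ)` with the level basis `galLevel` (fixing subgroups of finite extensions of `ℚ`).
Class of modules `FlatMod p N V`: `V` is killed by `N` and has a finite flat model over `ℤ_(p)`
(`Flat44.HasFlatModel`, the Prelude's notion).  Condition `flatCond p N V ≤ H¹(G_ℚ, V)`: the classes whose
extension module `E_c = V × ℤ/N` has a finite flat model over `ℤ_(p)` (all classes if `V` is not in the
class).  `flatSystem p N : SelmerSystem galLevel` packages `push` and `pull`; so the abstract Selmer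
inequality (`SelCoh42/{Sel,Final,Simple,Unram}.lean`) applies to "flat at `p`, unramified at `I` (and at a
family of further inertia groups)".
-/
import Fermat.Agent.MAZ.FlatCond42.ExtMod
import Fermat.Agent.MAZ.SelCoh42.Unram
import Fermat.Agent.MAZ.SelCoh42.Simple

set_option autoImplicit false

noncomputable section

namespace Fermat.Agent.MAZ.FlatCond42

open Fermat.Agent.Flat44 Fermat.Agent.MAZ.SelCoh42

/-- The level basis of `G_ℚ`: fixing subgroups of finite extensions of `ℚ` inside `ℚ̄`. -/
def galLevel : LevelSets GQ where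
  sets := {U | ∃ F : IntermediateField ℚ Qb, FiniteDimensional ℚ F ∧ U = F.fixingSubgroup}
  nonempty := ⟨(⊥ : IntermediateField ℚ Qb).fixingSubgroup, ⊥, inferInstance, rfl⟩
  directed := by
    rintro _ ⟨F, hF, rfl⟩ _ ⟨F', hF', rfl⟩
    exact ⟨(F ⊔ F').fixingSubgroup, ⟨F ⊔ F', inferInstance, rfl⟩,
      le_inf (IntermediateField.fixingSubgroup_antitone le_sup_left)
        (IntermediateField.fixingSubgroup_antitone le_sup_right)⟩

variable (p N : ℕ)

/-- The class of modules: killed by `N`, with a finite flat model over `ℤ_(p)`. -/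
def FlatMod (V : Type) [AddCommGroup V] [DistribMulAction GQ V] : Prop :=
  (∀ y : V, N • y = 0) ∧ HasFlatModel p V (modAct V)

variable [NeZero N]

/-- The flat classes in `H¹(G_ℚ, V)` (everything if `V` is not in the class). -/
def flatCond (V : Type) [AddCommGroup V] [DistribMulAction GQ V] : AddSubgroup (H1 galLevel V) where
  carrier := {x | FlatMod p N V → ∃ c : Z1 galLevel V, H1mk galLevel c = x ∧ IsFlatCochain p N c.1}
  zero_mem' := fun hV => ⟨0, map_zero _, isFlatCochain_zero hV.2⟩
  add_mem' := by
    intro x y hx hy hV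
    obtain ⟨c, rfl, hc⟩ := hx hV
    obtain ⟨c', rfl, hc'⟩ := hy hV
    exact ⟨c + c', map_add _ _ _, hc.add hc'⟩
  neg_mem' := by
    intro x hx hV
    obtain ⟨c, rfl, hc⟩ := hx hV
    exact ⟨-c, map_neg _ _, hc.neg⟩

variable {p N}

theorem mem_flatCond_iff {V : Type} [AddCommGroup V] [DistribMulAction GQ V] (hV : FlatMod p N V)
    (c : Z1 galLevel V) : H1mk galLevel c ∈ flatCond p N V ↔ IsFlatCochain p N c.1 := by
  constructor
  · intro h
    obtain ⟨c', hcc, hc'⟩ := h hV
    have h0 : H1mk galLevel (c - c') = 0 := by rw [map_sub, hcc, sub_self]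
    obtain ⟨v, hv⟩ := (H1mk_eq_zero_iff galLevel _).1 h0
    refine hc'.congr hV.1 v fun σ => ?_
    have := hv σ
    simp only [AddSubgroup.coe_sub, Pi.sub_apply] at this
    rw [← this]
    abel
  · intro h _
    exact ⟨c, rfl, h⟩

variable (p N) in
/-- **The flat Selmer system** at `p` for modules killed by `N`. -/
def flatSystem : SelmerSystem.{0} galLevel where
  mem V _ _ := FlatMod p N V
  cond V _ _ := flatCond p N V
  push := by
    intro V V' _ _ _ _ f hV hV' x hx
    obtain ⟨c, rfl, hc⟩ := hx hV
    rw [H1map_mk, mem_flatCond_iff hV']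
    exact hc.map hV'.2 f
  pull := by
    intro V V' _ _ _ _ f hf hV hV' x hx
    obtain ⟨c, rfl⟩ := H1mk_surjective galLevel x
    rw [H1map_mk, mem_flatCond_iff hV'] at hx
    rw [mem_flatCond_iff hV]
    exact IsFlatCochain.of_map_injective f hf hx

omit [NeZero N] in
/-- The class is closed under Galois-stable subgroups and their quotients. -/
theorem flatMod_sub_quot {V : Type} [AddCommGroup V] [DistribMulAction GQ V] (T : StableSub GQ V)
    (hV : FlatMod p N V) : FlatMod p N T.W ∧ FlatMod p N (V ⧸ T.W) := by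
  refine ⟨⟨fun y => Subtype.ext (hV.1 y.1), ?_⟩, ⟨fun q => ?_, ?_⟩⟩
  · exact hV.2.sub T.W (modAct T.W) fun _ _ => rfl
  · induction q using QuotientAddGroup.induction_on with
    | H y =>
      show ((N • y : V) : V ⧸ T.W) = 0
      rw [hV.1 y]
      rfl
  · exact hV.2.quot T.W (fun σ x hx => T.stable σ x hx) (modAct (V ⧸ T.W)) fun _ _ => rfl

end Fermat.Agent.MAZ.FlatCond42
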