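/-
Programme MAZ (S15), Selmer core (helper42): **S-SEL, abstract assembly.**

`selSystem r N χ 𝒥 : SelmerSystem galLevel` is the Selmer system on the class of `G_ℚ`-modules `V` which

* are killed by `N` and have a finite flat model over `ℤ_(r)` (`FlatMod r N V`),
* have trivial action of every `J ∈ 𝒥` (the inertia groups at the primes `ℓ ∤ p r`),
* have `r`-power order and every `(g - 1)(g - χ g)` nilpotent (`RClass r χ V`, `NilQuad`),

with condition "flat at `r`, unramified at every `J ∈ 𝒥`".  The class is closed under Galois-stable subgroups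
and quotients (`selSystem_closed`), and its simple objects are `0`, `ℤ/r` or `ℤ/r(χ)`
(`SelCoh42.simple_of_nilQuad`).

Main result `card_selF_le`: given the two base cases in cocycle form (`hT`: the trivial module of order `r`,
bricks L-r-T / L2-b; `hC`: the module `ℤ/r(χ)` for `r` odd, brick L-r-CHI) and a module `G` of the class with
`|G| ≤ |G^{I_p}|²` (A2) and `|G| ≤ |G^{c}|²` (A3'), the Selmer group with the two defect subgroups `I_p` and
`⟨c⟩` satisfies `|SelF G| ≤ |G^{G_ℚ}|`.  Uniform in `r` (including `r = 2`).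
-/
import Fermat.Agent.MAZ.FlatCond42.System
import Fermat.Agent.MAZ.SelCoh42.Fam
import Fermat.Agent.MAZ.SelCoh42.NilSimple

set_option autoImplicit false

namespace Fermat.Agent.MAZ.SelCoh42

universe u v

variable {Γ : Type v} [Group Γ] {𝒰 : LevelSets Γ}

/-- Restricting the class of modules of a Selmer system. -/
def SelmerSystem.restrict (S : SelmerSystem.{u} 𝒰)
    (P : ∀ (V : Type u) [AddCommGroup V] [DistribMulAction Γ V], Prop) : SelmerSystem.{u} 𝒰 where
  mem V _ _ := S.mem V ∧ P V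
  cond V _ _ := S.cond V
  push f hV hV' x hx := S.push f hV.1 hV'.1 x hx
  pull f hf hV hV' x hx := S.pull f hf hV.1 hV'.1 x hx

end Fermat.Agent.MAZ.SelCoh42

noncomputable section

namespace Fermat.Agent.MAZ.FlatCond42

open Fermat.Agent.Flat44 Fermat.Agent.MAZ.SelCoh42

/-- `r`-power order and nilpotent `(g - 1)(g - χ g)`. -/
def RClass (r : ℕ) (χ : GQ →* (ZMod r)ˣ) (V : Type) [AddCommGroup V] [DistribMulAction GQ V] : Prop :=
  (∃ k : ℕ, ∀ x : V, r ^ k • x = 0) ∧ NilQuad χ V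

theorem RClass.sub_quot {r : ℕ} {χ : GQ →* (ZMod r)ˣ} {V : Type} [AddCommGroup V]
    [DistribMulAction GQ V] (T : StableSub GQ V) (h : RClass r χ V) :
    RClass r χ T.W ∧ RClass r χ (V ⧸ T.W) := by
  obtain ⟨⟨k, hk⟩, hn⟩ := h
  refine ⟨⟨⟨k, fun x => Subtype.ext (hk x.1)⟩, (hn.sub_quot T).1⟩, ⟨⟨k, fun q => ?_⟩, (hn.sub_quot T).2⟩⟩
  induction q using QuotientAddGroup.induction_on with
  | H y =>
    show ((r ^ k • y : V) : V ⧸ T.W) = 0
    rw [hk y]
    rfl

theorem actsTrivially_sub_quot {J : Subgroup GQ} {V : Type} [AddCommGroup V] [DistribMulAction GQ V]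
    (T : StableSub GQ V) (h : ActsTrivially J V) :
    ActsTrivially J T.W ∧ ActsTrivially J (V ⧸ T.W) := by
  refine ⟨fun s hs x => Subtype.ext (h s hs x.1), fun s hs q => ?_⟩
  induction q using QuotientAddGroup.induction_on with
  | H y => rw [StableSub.smul_mk, h s hs y]

variable (r N : ℕ) [NeZero N] (χ : GQ →* (ZMod r)ˣ) (𝒥 : Set (Subgroup GQ))

/-- **The Selmer system of S-SEL**: flat at `r`, unramified at every `J ∈ 𝒥`, on the class of modules
described in the header. -/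
def selSystem : SelmerSystem.{0} galLevel :=
  ((flatSystem r N).unram 𝒥).restrict (RClass r χ)

variable {r N χ 𝒥}

theorem selSystem_mem_iff {V : Type} [AddCommGroup V] [DistribMulAction GQ V] :
    (selSystem r N χ 𝒥).mem V ↔
      (FlatMod r N V ∧ ∀ J ∈ 𝒥, ActsTrivially J V) ∧ RClass r χ V := Iff.rfl

theorem selSystem_cond {V : Type} [AddCommGroup V] [DistribMulAction GQ V] :
    (selSystem r N χ 𝒥).cond V = flatCond r N V ⊓ unramAt 𝒥 V := rfl

/-- The class is closed under Galois-stable subgroups and their quotients. -/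
theorem selSystem_closed (V : Type) [AddCommGroup V] [DistribMulAction GQ V] (T : StableSub GQ V)
    (hV : (selSystem r N χ 𝒥).mem V) :
    (selSystem r N χ 𝒥).mem T.W ∧ (selSystem r N χ 𝒥).mem (V ⧸ T.W) := by
  obtain ⟨⟨hflat, hunr⟩, hR⟩ := hV
  refine ⟨⟨⟨(flatMod_sub_quot T hflat).1, fun J hJ => (actsTrivially_sub_quot T (hunr J hJ)).1⟩,
    (hR.sub_quot T).1⟩, ⟨⟨(flatMod_sub_quot T hflat).2,
      fun J hJ => (actsTrivially_sub_quot T (hunr J hJ)).2⟩, (hR.sub_quot T).2⟩⟩

/-- Membership in the Selmer group, in cocycle form, for a module on which `I₁` acts trivially. -/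
theorem mem_selF_mk_iff {V : Type} [AddCommGroup V] [DistribMulAction GQ V]
    (hV : (selSystem r N χ 𝒥).mem V) (I₁ I₂ : Subgroup GQ) (c : Z1 galLevel V) :
    H1mk galLevel c ∈ SelF (selSystem r N χ 𝒥) ![I₁, I₂] V ↔
      IsFlatCochain r N c.1 ∧ (∀ J ∈ 𝒥, ∀ s ∈ J, c.1 s = 0) ∧
        (∃ v : V, ∀ s ∈ I₁, c.1 s = s • v - v) ∧ (∃ v : V, ∀ s ∈ I₂, c.1 s = s • v - v) := by
  rw [mem_SelF, selSystem_cond, AddSubgroup.mem_inf, mem_flatCond_iff hV.1.1, mem_unramAt]
  constructor
  · rintro ⟨⟨hfl, hun⟩, hres⟩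
    refine ⟨hfl, fun J hJ => ?_, ?_, ?_⟩
    · exact (H1res_mk_eq_zero_iff_of_trivial (hV.1.2 J hJ) c).1 (hun J hJ)
    · exact (H1res_mk_eq_zero_iff galLevel I₁ c).1 (hres 0)
    · exact (H1res_mk_eq_zero_iff galLevel I₂ c).1 (hres 1)
  · rintro ⟨hfl, hun, h1, h2⟩
    refine ⟨⟨hfl, fun J hJ => ?_⟩, fun j => ?_⟩
    · exact (H1res_mk_eq_zero_iff_of_trivial (hV.1.2 J hJ) c).2 (hun J hJ)
    · fin_cases j
      · exact (H1res_mk_eq_zero_iff galLevel I₁ c).2 h1
      · exact (H1res_mk_eq_zero_iff galLevel I₂ c).2 h2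

/-! ### The base cases and the assembly -/

section Assembly

variable [Fact r.Prime]

omit [Fact r.Prime] in
/-- The bound for a module all of whose Selmer classes vanish. -/
theorem selBoundF_of_forall_eq_zero (I₁ I₂ : Subgroup GQ) (W : Type) [AddCommGroup W]
    [DistribMulAction GQ W] [Finite W]
    (hzero : ∀ x ∈ SelF (selSystem r N χ 𝒥) ![I₁, I₂] W, x = 0)
    (hinv : Nat.card (Inv I₁ W) * Nat.card (Inv I₂ W)
      ≤ Nat.card (Inv (⊤ : Subgroup GQ) W) * Nat.card W) :
    SelBoundF (selSystem r N χ 𝒥) ![I₁, I₂] W (Nat.card W) := by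
  have hsub : Subsingleton (SelF (selSystem r N χ 𝒥) ![I₁, I₂] W) :=
    ⟨fun a b => Subtype.ext ((hzero a.1 a.2).trans (hzero b.1 b.2).symm)⟩
  refine ⟨inferInstance, ?_⟩
  have hprod : invProd ![I₁, I₂] W = Nat.card (Inv I₁ W) * Nat.card (Inv I₂ W) := by
    unfold invProd
    rw [Fin.prod_univ_two]
    rfl
  rw [hprod, Nat.card_unique, one_mul]
  exact hinv

theorem card_inv_le (I : Subgroup GQ) (W : Type) [AddCommGroup W] [DistribMulAction GQ W] [Finite W] :
    Nat.card (Inv I W) ≤ Nat.card W :=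
  Nat.card_le_card_of_injective _ Subtype.val_injective

theorem card_inv_top_of_trivial (W : Type) [AddCommGroup W] [DistribMulAction GQ W]
    (htriv : ∀ (g : GQ) (x : W), g • x = x) : Nat.card (Inv (⊤ : Subgroup GQ) W) = Nat.card W := by
  have : Inv (⊤ : Subgroup GQ) W = ⊤ := by
    rw [eq_top_iff]
    intro x _ s _
    exact htriv s x
  rw [this]
  exact Nat.card_congr (Equiv.Set.univ W)

/-- **The base cases give the bound for the simple objects of the class.** -/
theorem selBoundF_simple (Ip : Subgroup GQ) (cc : GQ)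
    (hχIp : ∀ s ∈ Ip, χ s = 1) (hχc : ((χ cc : (ZMod r)ˣ) : ZMod r) = -1)
    (hT : ∀ (W : Type) [AddCommGroup W] [DistribMulAction GQ W] [Finite W], Nat.card W = r →
      (∀ (g : GQ) (x : W), g • x = x) → FlatMod r N W → ∀ c : Z1 galLevel W, IsFlatCochain r N c.1 →
      (∀ J ∈ 𝒥, ∀ s ∈ J, c.1 s = 0) → (∀ s ∈ Ip, c.1 s = 0) → c.1 cc = 0 →
      ∃ v : W, ∀ g : GQ, c.1 g = g • v - v)
    (hC : ∀ (W : Type) [AddCommGroup W] [DistribMulAction GQ W] [Finite W], Nat.card W = r →
      (∀ (g : GQ) (x : W), g • x = ((χ g : (ZMod r)ˣ) : ZMod r).val • x) → FlatMod r N W → r ≠ 2 →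
      ∀ c : Z1 galLevel W, IsFlatCochain r N c.1 →
      (∀ J ∈ 𝒥, ∀ s ∈ J, c.1 s = 0) → (∀ s ∈ Ip, c.1 s = 0) →
      ∃ v : W, ∀ g : GQ, c.1 g = g • v - v)
    (W : Type) [AddCommGroup W] [DistribMulAction GQ W] [Finite W]
    (hW : (selSystem r N χ 𝒥).mem W) (hs : IsSimpleOrZero GQ W) :
    SelBoundF (selSystem r N χ 𝒥) ![Ip, Subgroup.zpowers cc] W (Nat.card W) := by
  have hrp : r.Prime := Fact.out
  have hsimple : ∀ W' : AddSubgroup W, (∀ (g : GQ) (x : W), x ∈ W' → g • x ∈ W') →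
      W' = ⊥ ∨ W' = ⊤ := fun W' h => hs ⟨W', h⟩
  -- the trivial case, shared by several branches
  have trivCase : (∀ (g : GQ) (x : W), g • x = x) →
      (∀ c : Z1 galLevel W, IsFlatCochain r N c.1 → (∀ J ∈ 𝒥, ∀ s ∈ J, c.1 s = 0) →
        (∀ s ∈ Ip, c.1 s = 0) → c.1 cc = 0 → ∃ v : W, ∀ g : GQ, c.1 g = g • v - v) →
      SelBoundF (selSystem r N χ 𝒥) ![Ip, Subgroup.zpowers cc] W (Nat.card W) := by
    intro htriv hcase
    apply selBoundF_of_forall_eq_zero
    · intro x hx
      obtain ⟨c, rfl⟩ := H1mk_surjective galLevel x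
      obtain ⟨hfl, hun, ⟨v1, h1⟩, ⟨v2, h2⟩⟩ := (mem_selF_mk_iff hW Ip (Subgroup.zpowers cc) c).1 hx
      refine (H1mk_eq_zero_iff galLevel c).2 (hcase c hfl hun (fun s hs' => ?_) ?_)
      · rw [h1 s hs', htriv, sub_self]
      · rw [h2 cc (Subgroup.mem_zpowers cc), htriv, sub_self]
    · rw [card_inv_top_of_trivial W htriv]
      exact Nat.mul_le_mul (card_inv_le _ W) (card_inv_le _ W)
  rcases simple_of_nilQuad χ hW.2.1 hsimple hW.2.2 with h0 | ⟨hcard, htriv⟩ | ⟨hcard, hchi⟩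
  · -- the zero module
    refine trivCase (fun g x => Subsingleton.elim _ _) (fun c _ _ _ _ => ⟨0, fun g => ?_⟩)
    exact Subsingleton.elim _ _
  · -- trivial action
    exact trivCase htriv (fun c hfl hun hIp hcc => hT W hcard htriv hW.1.1 c hfl hun hIp hcc)
  · -- action through `χ`
    by_cases hr2 : r = 2
    · -- `χ` is trivial
      subst hr2
      have htriv : ∀ (g : GQ) (x : W), g • x = x := by
        intro g x
        rw [hchi g x, Simple14.char_eq_one_of_two χ g, Units.val_one, ZMod.val_one, one_smul]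
      exact trivCase htriv (fun c hfl hun hIp hcc => hT W hcard htriv hW.1.1 c hfl hun hIp hcc)
    · have : Fact (1 < r) := ⟨hrp.one_lt⟩
      have hIptriv : ∀ s ∈ Ip, ∀ x : W, s • x = x := by
        intro s hs' x
        rw [hchi s x, hχIp s hs', Units.val_one, ZMod.val_one, one_smul]
      have hrW : ∀ x : W, r • x = 0 := by
        intro x
        rw [← hcard]
        exact card_nsmul_eq_zero'
      apply selBoundF_of_forall_eq_zero
      · intro x hx
        obtain ⟨c, rfl⟩ := H1mk_surjective galLevel x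
        obtain ⟨hfl, hun, ⟨v1, h1⟩, -⟩ := (mem_selF_mk_iff hW Ip (Subgroup.zpowers cc) c).1 hx
        refine (H1mk_eq_zero_iff galLevel c).2 (hC W hcard hchi hW.1.1 hr2 c hfl hun (fun s hs' => ?_))
        rw [h1 s hs', hIptriv s hs', sub_self]
      · -- `W^c = 0`
        have hcc0 : ∀ x ∈ Inv (Subgroup.zpowers cc) W, x = 0 := by
          intro x hx
          have h1 : cc • x = x := hx cc (Subgroup.mem_zpowers cc)
          rw [hchi cc x, hχc] at h1
          -- `((-1).val + 1) • x = 0`, so `2 • x = 0`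
          have hdiv : r ∣ (-1 : ZMod r).val + 1 := by
            rw [← ZMod.natCast_eq_zero_iff, Nat.cast_add, ZMod.natCast_zmod_val, Nat.cast_one,
              neg_add_cancel]
          obtain ⟨m, hm⟩ := hdiv
          have h3 : ((-1 : ZMod r).val + 1) • x = 0 := by
            rw [hm, mul_smul, hrW]
          have h2 : 2 • x = 0 := by
            rw [add_smul, one_smul, h1] at h3
            rw [two_nsmul]
            exact h3
          have hodd : Nat.Coprime 2 r :=
            (Nat.coprime_primes Nat.prime_two hrp).2 (Ne.symm hr2)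
          have hord : addOrderOf x ∣ 1 := by
            rw [← hodd.gcd_eq_one]
            exact Nat.dvd_gcd (addOrderOf_dvd_of_nsmul_eq_zero h2)
              (addOrderOf_dvd_of_nsmul_eq_zero (hrW x))
          exact AddMonoid.addOrderOf_eq_one_iff.1 (Nat.dvd_one.1 hord)
        have hcard1 : Nat.card (Inv (Subgroup.zpowers cc) W) = 1 := by
          have : Subsingleton (Inv (Subgroup.zpowers cc) W) :=
            ⟨fun a b => Subtype.ext ((hcc0 a.1 a.2).trans (hcc0 b.1 b.2).symm)⟩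
          exact Nat.card_unique
        rw [hcard1, mul_one]
        calc Nat.card (Inv Ip W) ≤ Nat.card W := card_inv_le _ W
          _ = 1 * Nat.card W := (one_mul _).symm
          _ ≤ Nat.card (Inv (⊤ : Subgroup GQ) W) * Nat.card W :=
            Nat.mul_le_mul_right _ Nat.card_pos

/-- **S-SEL, abstract assembly**: `|SelF G| ≤ |G^{G_ℚ}|` for a module `G` of the class with
`|G| ≤ |G^{I_p}|²` and `|G| ≤ |G^{c}|²`, given the two base cases. -/
theorem card_selF_le (Ip : Subgroup GQ) (cc : GQ)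
    (hχIp : ∀ s ∈ Ip, χ s = 1) (hχc : ((χ cc : (ZMod r)ˣ) : ZMod r) = -1)
    (hT : ∀ (W : Type) [AddCommGroup W] [DistribMulAction GQ W] [Finite W], Nat.card W = r →
      (∀ (g : GQ) (x : W), g • x = x) → FlatMod r N W → ∀ c : Z1 galLevel W, IsFlatCochain r N c.1 →
      (∀ J ∈ 𝒥, ∀ s ∈ J, c.1 s = 0) → (∀ s ∈ Ip, c.1 s = 0) → c.1 cc = 0 →
      ∃ v : W, ∀ g : GQ, c.1 g = g • v - v)
    (hC : ∀ (W : Type) [AddCommGroup W] [DistribMulAction GQ W] [Finite W], Nat.card W = r →
      (∀ (g : GQ) (x : W), g • x = ((χ g : (ZMod r)ˣ) : ZMod r).val • x) → FlatMod r N W → r ≠ 2 →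
      ∀ c : Z1 galLevel W, IsFlatCochain r N c.1 →
      (∀ J ∈ 𝒥, ∀ s ∈ J, c.1 s = 0) → (∀ s ∈ Ip, c.1 s = 0) →
      ∃ v : W, ∀ g : GQ, c.1 g = g • v - v)
    (G : Type) [AddCommGroup G] [DistribMulAction GQ G] [Finite G]
    (hsm : IsSmooth galLevel G) (hG : (selSystem r N χ 𝒥).mem G)
    (h1 : Nat.card G ≤ Nat.card (Inv Ip G) ^ 2)
    (h2 : Nat.card G ≤ Nat.card (Inv (Subgroup.zpowers cc) G) ^ 2) :
    Finite (SelF (selSystem r N χ 𝒥) ![Ip, Subgroup.zpowers cc] G) ∧
      Nat.card (SelF (selSystem r N χ 𝒥) ![Ip, Subgroup.zpowers cc] G)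
        ≤ Nat.card (Inv (⊤ : Subgroup GQ) G) :=
  selF_card_le_of_two (selSystem r N χ 𝒥) Ip (Subgroup.zpowers cc)
    (fun V _ _ T hV => selSystem_closed V T hV)
    (fun W _ _ _ _ hW hs => selBoundF_simple Ip cc hχIp hχc hT hC W hW hs)
    G hsm hG h1 h2

end Assembly

end Fermat.Agent.MAZ.FlatCond42
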