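/-
Programme MAZ (S15), Selmer core (helper42): **Kummer classes land in the Selmer group** — the glue between
K-DEF (`Kum5/Abstract.lean`), the Selmer system of S-SEL (`FlatCond42/SSel.lean`) and the descent data
(D0), (D1), (D2) of S-FIN-ABS (`FinAbs19.eisenstein_fin_of_descent`).

Setting: `J` a smooth `N`-divisible `G_ℚ`-module, `G ≤ J[N]` a Galois-stable subgroup (`G_k = J[r^k]_𝔪`),
`e : J →+[G_ℚ] J` an equivariant endomorphism mapping `J[N]` into `G` (the Eisenstein projector), and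

  `kumSel M : J^{G_ℚ} →+ H¹(G_ℚ, G)`,  `x ↦ M • (e|_{J[N]})_* (kum x)`.

* `kumSel_nsmul` (D0): `kumSel M (N • z) = 0`.
* `kumSel_mem_selF` (D1): for `M = 2 * M₁`, `kumSel M x ∈ SelF (selSystem r N χ 𝒥) ![Ip, ⟨cc⟩] G`, given a
  division point `z` of `x` which is (K1) fixed by every `I ∈ 𝒥`, (K2) has a flat Kummer cocycle, and
  (K3) a division point `z'` of `M₁ • x` fixed by `Ip`; the condition at `⟨cc⟩` is automatic
  ((K-inf), `L2_86.exists_two_nsmul_kummer_eq_coboundary`).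
* `exists_of_kumSel_eq_zero`, `exists_nsmul_eq_of_kumSel_eq_zero` (D2): if `kumSel M x = 0` then
  `M • e x ∈ N • J^{G_ℚ}`; if moreover `x ≡ e x` modulo `N • J^{G_ℚ}` then `M • x ∈ N • J^{G_ℚ}`.
-/
import Fermat.Agent.MAZ.FlatCond42.SSel
import Fermat.Agent.MAZ.Kum5.Abstract
import Fermat.Agent.MAZ.L2_86.KummerInf

set_option autoImplicit false

noncomputable section

namespace Fermat.Agent.MAZ.FlatCond42

open Fermat.Agent.Flat44 Fermat.Agent.MAZ.SelCoh42 Fermat.Agent.MAZ.Kum5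

section Nsmul

variable {p N : ℕ} [NeZero N] {V : Type} [AddCommGroup V] [DistribMulAction GQ V]

theorem IsFlatCochain.nsmul (hV : HasFlatModel p V (modAct V)) {c : GQ → V}
    (h : IsFlatCochain p N c) (m : ℕ) : IsFlatCochain p N (m • c) := by
  induction m with
  | zero =>
    rw [zero_nsmul]
    exact isFlatCochain_zero hV
  | succ m ih =>
    rw [succ_nsmul]
    exact ih.add h

end Nsmul

variable {J : Type} [AddCommGroup J] [DistribMulAction GQ J] {N : ℕ}

/-- The corestriction `J[N] → G` of an equivariant endomorphism `e` of `J` with `e (J[N]) ⊆ G`. -/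
def torsProj (G : StableSub GQ J) (e : J →+[GQ] J) (heG : ∀ x : J, N • x = 0 → e x ∈ G.W) :
    (tors (Γ := GQ) J N).W →+[GQ] G.W where
  toFun x := ⟨e x.1, heG x.1 x.2⟩
  map_smul' g x := Subtype.ext (map_smul e g x.1)
  map_zero' := Subtype.ext (map_zero e)
  map_add' x y := Subtype.ext (map_add e x.1 y.1)

@[simp] theorem torsProj_coe (G : StableSub GQ J) (e : J →+[GQ] J)
    (heG : ∀ x : J, N • x = 0 → e x ∈ G.W) (x : (tors (Γ := GQ) J N).W) :
    ((torsProj G e heG x : G.W) : J) = e x.1 := rfl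

variable (hdiv : ∀ x : J, ∃ y : J, N • y = x) (hsm : IsSmooth galLevel J)
  (G : StableSub GQ J) (e : J →+[GQ] J) (heG : ∀ x : J, N • x = 0 → e x ∈ G.W)

/-- `x ↦ M • (e|_{J[N]})_* (kum x)`. -/
def kumSel (M : ℕ) : Inv (⊤ : Subgroup GQ) J →+ H1 galLevel G.W :=
  M • ((H1map galLevel (torsProj G e heG)).comp (kum galLevel hdiv hsm))

theorem kumSel_apply (M : ℕ) (x : Inv (⊤ : Subgroup GQ) J) :
    kumSel hdiv hsm G e heG M x
      = M • H1map galLevel (torsProj G e heG) (kum galLevel hdiv hsm x) := rfl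

/-- The cocycle representing `kumSel M x` attached to a division point `z` of `x`. -/
def kumSelCocycle (M : ℕ) (z : J) (hz : ∀ g : GQ, g • (N • z) = N • z) : Z1 galLevel G.W :=
  M • Z1map galLevel (torsProj G e heG) (kumCocycle galLevel hdiv hsm z hz)

theorem kumSelCocycle_apply (M : ℕ) (z : J) (hz : ∀ g : GQ, g • (N • z) = N • z) (g : GQ) :
    (((kumSelCocycle hdiv hsm G e heG M z hz).1 g : G.W) : J) = M • e (g • z - z) := by
  unfold kumSelCocycle
  rw [AddSubgroup.coe_nsmul, Pi.smul_apply, Z1map_apply, AddSubgroup.coe_nsmul, torsProj_coe,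
    kumCocycle_apply]

theorem kumSel_eq_mk (M : ℕ) (x : Inv (⊤ : Subgroup GQ) J) (z : J) (hz : N • z = x.1) :
    kumSel hdiv hsm G e heG M x = H1mk galLevel (kumSelCocycle hdiv hsm G e heG M z (fun g => by
      rw [hz]; exact mem_Inv_top.1 x.2 g)) := by
  rw [kumSel_apply, kum_eq_mk galLevel hdiv hsm x z hz, H1map_mk]
  unfold kumSelCocycle
  rw [map_nsmul]

/-- **(D0)**: `kumSel` kills `N • J^{G_ℚ}`. -/
theorem kumSel_nsmul (M : ℕ) (z : Inv (⊤ : Subgroup GQ) J) :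
    kumSel hdiv hsm G e heG M (N • z) = 0 := by
  have h0 : kum galLevel hdiv hsm (N • z) = 0 :=
    (kum_eq_zero_iff galLevel hdiv hsm (N • z)).2 ⟨z.1, mem_Inv_top.1 z.2, rfl⟩
  rw [kumSel_apply, h0, map_zero, smul_zero]

/-- **(D2)**: if `kumSel M x = 0` then `M • e x` is `N` times a rational point. -/
theorem exists_of_kumSel_eq_zero (hGN : ∀ y ∈ G.W, N • y = 0) (M : ℕ)
    (x : Inv (⊤ : Subgroup GQ) J) (h : kumSel hdiv hsm G e heG M x = 0) :
    ∃ y : J, (∀ g : GQ, g • y = y) ∧ N • y = M • e x.1 := by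
  obtain ⟨z, hz⟩ := hdiv x.1
  rw [kumSel_eq_mk hdiv hsm G e heG M x z hz, H1mk_eq_zero_iff] at h
  obtain ⟨v, hv⟩ := h
  -- `M • e z - v` is fixed by `G_ℚ`
  refine ⟨M • e z - (v : J), fun g => ?_, ?_⟩
  · have h1 := congrArg Subtype.val (hv g)
    rw [kumSelCocycle_apply, AddSubgroup.coe_sub, StableSub.coe_smul, map_sub, map_smul,
      smul_sub] at h1
    rw [smul_sub, ← smul_comm M g (e z)]
    rw [sub_eq_sub_iff_add_eq_add] at h1 ⊢
    rw [h1, add_comm]
  · rw [smul_sub, hGN v.1 v.2, sub_zero, smul_comm, ← map_nsmul, hz]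

/-- **(D1)**: `kumSel (2 * M₁) x` lies in the Selmer group, given a division point `z` of `x` fixed by
every `I ∈ 𝒥` (K1) with a flat Kummer cocycle (K2), and a division point `z'` of `M₁ • x` fixed by `Ip`
(K3).  The condition at `⟨cc⟩` is automatic (K-inf). -/
theorem kumSel_mem_selF [NeZero N] (r : ℕ) (χ : GQ →* (ZMod r)ˣ) (𝒥 : Set (Subgroup GQ))
    (Ip : Subgroup GQ) (cc : GQ) (hcc : cc * cc = 1)
    (hG : (selSystem r N χ 𝒥).mem G.W) (M₁ : ℕ) (x : Inv (⊤ : Subgroup GQ) J)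
    (z : J) (hz : N • z = x.1)
    (hK1 : ∀ I ∈ 𝒥, ∀ s ∈ I, s • z = z)
    (hK2 : IsFlatCochain r N (kumCocycle galLevel hdiv hsm z (fun g => by
      rw [hz]; exact mem_Inv_top.1 x.2 g)).1)
    (z' : J) (hz' : N • z' = M₁ • x.1) (hK3 : ∀ s ∈ Ip, s • z' = z') :
    kumSel hdiv hsm G e heG (2 * M₁) x
      ∈ SelF (selSystem r N χ 𝒥) ![Ip, Subgroup.zpowers cc] G.W := by
  have hzinv : ∀ g : GQ, g • (N • z) = N • z := fun g => by
    rw [hz]; exact mem_Inv_top.1 x.2 g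
  rw [kumSel_eq_mk hdiv hsm G e heG (2 * M₁) x z hz, mem_selF_mk_iff hG]
  refine ⟨?_, ?_, ?_, ?_⟩
  · -- flat
    have h1 := (hK2.map hG.1.1.2 (torsProj G e heG)).nsmul hG.1.1.2 (2 * M₁)
    exact h1
  · -- unramified at `𝒥`
    intro I hI s hs
    apply Subtype.ext
    rw [kumSelCocycle_apply, hK1 I hI s hs, sub_self, map_zero, smul_zero]
    rfl
  · -- `Ip`
    have hw : N • (M₁ • z - z') = 0 := by
      rw [smul_sub, smul_comm, hz, hz', sub_self]
    refine ⟨(2 : ℕ) • (⟨e (M₁ • z - z'), heG _ hw⟩ : G.W), fun s hs => ?_⟩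
    apply Subtype.ext
    rw [kumSelCocycle_apply, AddSubgroup.coe_sub, StableSub.coe_smul, AddSubgroup.coe_nsmul]
    show (2 * M₁) • e (s • z - z) = s • (2 • e (M₁ • z - z')) - 2 • e (M₁ • z - z')
    have hsw : s • (M₁ • z - z') - (M₁ • z - z') = M₁ • (s • z - z) := by
      rw [smul_sub, hK3 s hs, smul_comm s M₁ z, smul_sub]
      abel
    calc (2 * M₁) • e (s • z - z) = 2 • e (M₁ • (s • z - z)) := by rw [mul_smul, map_nsmul]
      _ = 2 • e (s • (M₁ • z - z') - (M₁ • z - z')) := by rw [hsw]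
      _ = 2 • (s • e (M₁ • z - z') - e (M₁ • z - z')) := by rw [map_sub, map_smul e s]
      _ = s • (2 • e (M₁ • z - z')) - 2 • e (M₁ • z - z') := by
          rw [smul_sub, smul_comm s (2 : ℕ)]
  · -- `⟨cc⟩`
    obtain ⟨t, ht, h2⟩ :=
      L2_86.exists_two_nsmul_kummer_eq_coboundary cc hcc N z (hzinv cc)
    refine ⟨M₁ • (⟨e t, heG t ht⟩ : G.W), fun s hs => ?_⟩
    apply Subtype.ext
    rw [kumSelCocycle_apply, AddSubgroup.coe_sub, StableSub.coe_smul, AddSubgroup.coe_nsmul]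
    show (2 * M₁) • e (s • z - z) = s • (M₁ • e t) - M₁ • e t
    calc (2 * M₁) • e (s • z - z) = M₁ • e ((2 : ℕ) • (s • z - z)) := by
          rw [mul_comm, mul_smul, map_nsmul]
      _ = M₁ • e (s • t - t) := by rw [h2 s hs]
      _ = M₁ • (s • e t - e t) := by rw [map_sub, map_smul e s]
      _ = s • (M₁ • e t) - M₁ • e t := by rw [smul_sub, smul_comm s M₁]

/-- **(D2), congruence form** (the shape of `FinAbs19.eisenstein_fin_of_descent`): if `x ≡ e x` modulo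
`N • J^{G_ℚ}` and `kumSel M x = 0`, then `M • x ∈ N • J^{G_ℚ}`. -/
theorem exists_nsmul_eq_of_kumSel_eq_zero (hGN : ∀ y ∈ G.W, N • y = 0) (M : ℕ)
    (x : Inv (⊤ : Subgroup GQ) J) (hx : ∃ z : Inv (⊤ : Subgroup GQ) J, x.1 - e x.1 = N • z.1)
    (h : kumSel hdiv hsm G e heG M x = 0) :
    ∃ z : Inv (⊤ : Subgroup GQ) J, M • x.1 = N • z.1 := by
  obtain ⟨y, hyinv, hy⟩ := exists_of_kumSel_eq_zero hdiv hsm G e heG hGN M x h
  obtain ⟨z, hz⟩ := hx
  refine ⟨⟨y, mem_Inv_top.2 hyinv⟩ + M • z, ?_⟩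
  have hx' : x.1 = e x.1 + N • z.1 := by rw [← hz]; abel
  rw [AddSubgroup.coe_add, AddSubgroup.coe_nsmul, smul_add, hy, smul_comm N M]
  conv_lhs => rw [hx', smul_add]

end Fermat.Agent.MAZ.FlatCond42
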