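/-
Programme MAZ (S15), Selmer core (helper42): **bridge between the two forms of the class `C_r`.**

`Constituents5.IsQuadNilp χ V` (helper5: a finite `Γ`-stable filtration shifted by `r` and by every
`(g - 1)(g - χ g)`; produced by `Constituents5.isQuadNilp_of_hecke` from Eichler–Shimura) implies the class
`RClass r χ V` used by `FlatCond42.selSystem` / `card_selF_le` (`r`-power order and every
`(g - 1)(g - χ g)` nilpotent).
-/
import Fermat.Agent.MAZ.Constituents5.QuadNilp
import Fermat.Agent.MAZ.FlatCond42.SSel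

set_option autoImplicit false

namespace Fermat.Agent.MAZ.FlatCond42

open Fermat.Agent.Flat44 Fermat.Agent.MAZ.SelCoh42 Fermat.Agent.MAZ.Constituents5

universe u v

theorem nilQuad_of_isQuadNilp {Γ : Type v} [Group Γ] {r : ℕ} {χ : Γ →* (ZMod r)ˣ} {V : Type u}
    [AddCommGroup V] [DistribMulAction Γ V] (h : IsQuadNilp χ V) :
    (∃ k : ℕ, ∀ x : V, r ^ k • x = 0) ∧ NilQuad χ V := by
  obtain ⟨n, F, h0, hn, -, hr, hq⟩ := h
  constructor
  · refine ⟨n, fun x => ?_⟩
    have key : ∀ (m j : ℕ) (x : V), x ∈ F j → r ^ m • x ∈ F (j + m) := by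
      intro m
      induction m with
      | zero => intro j x hx; simpa using hx
      | succ m ih =>
        intro j x hx
        rw [pow_succ', mul_smul, ← add_assoc]
        exact hr _ _ (ih j x hx)
    have hx : r ^ n • x ∈ F (0 + n) := key n 0 x (h0 ▸ AddSubgroup.mem_top x)
    rw [zero_add, hn] at hx
    exact AddSubgroup.mem_bot.1 hx
  · intro g
    refine ⟨n, ?_⟩
    have key : ∀ (m j : ℕ) (x : V), x ∈ F j →
        (SelCoh42.quadOp V ((χ g : (ZMod r)ˣ) : ZMod r).val g ^ m) x ∈ F (j + m) := by
      intro m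
      induction m with
      | zero => intro j x hx; simpa using hx
      | succ m ih =>
        intro j x hx
        rw [end_pow_succ_apply, add_comm m 1, ← add_assoc]
        refine ih (j + 1) _ ?_
        rw [quadOp_apply']
        exact hq j g x hx
    ext x
    have hx : (SelCoh42.quadOp V ((χ g : (ZMod r)ˣ) : ZMod r).val g ^ n) x ∈ F (0 + n) :=
      key n 0 x (h0 ▸ AddSubgroup.mem_top x)
    rw [zero_add, hn] at hx
    exact AddSubgroup.mem_bot.1 hx

/-- `IsQuadNilp` gives the class of `selSystem`. -/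
theorem rClass_of_isQuadNilp {r : ℕ} {χ : GQ →* (ZMod r)ˣ} {V : Type} [AddCommGroup V]
    [DistribMulAction GQ V] (h : IsQuadNilp χ V) : RClass r χ V :=
  nilQuad_of_isQuadNilp h

end Fermat.Agent.MAZ.FlatCond42
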